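import Mathlib
import Fermat.Agent.MUL.Orig.F3.OpenStab
import Fermat.Agent.MUL.Orig.Lib.RR.Riemann
import Fermat.Agent.MUL.Lib.RR.OfModularBar
import Fermat.Agent.MUL.Orig.S17.Interfaces
import Fermat.Agent.MUL.Lib.Minkowski.Final

section MergeWrap_S17_W_OpenStab -- from S17/W/OpenStab.lean

set_option autoImplicit false

noncomputable section

namespace Fermat.Agent.S17W

open ModularCurve AlgebraicCurve Fermat.Agent.RR Fermat.Agent.F3

local notation "Qb" => AlgebraicClosure ℚ

section General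

variable {K F : Type*} [Field K] [Field F] [Algebra K F]

/-- Every place is the only pole of some function. -/
theorem exists_only_pole (h : IsRRField K F) (P : Place K F) :
    ∃ f : F, f ≠ 0 ∧ P.ord f < 0 ∧ ∀ v : Place K F, v ≠ P → 0 ≤ v.ord f := by
  classical
  obtain ⟨γ, hγ⟩ := exists_riemann_bound h
  set n : ℕ := (γ + 2).toNat with hn
  have hn' : γ + 2 ≤ (n : ℤ) := Int.self_le_toNat _
  set D : Divisor K F := Finsupp.single P (n : ℤ) with hD
  have hdeg : Divisor.degree D = n := degree_single_one h P n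
  have hell : 2 ≤ ell D := by
    have := hγ D
    rw [hdeg] at this
    omega
  have h0D : (0 : Divisor K F) ≤ D := by
    rw [Finsupp.le_def]
    intro v
    rw [hD, Finsupp.single_apply]
    split_ifs <;> simp
  have hmono : riemannRochSpace (0 : Divisor K F) ≤ riemannRochSpace D :=
    riemannRochSpace_mono h0D
  -- a function in `L(nP)` outside `L(0)`
  have hex : ∃ f : F, f ∈ riemannRochSpace D ∧ f ∉ riemannRochSpace (0 : Divisor K F) := by
    by_contra hcon
    push Not at hcon
    have heq : riemannRochSpace D = riemannRochSpace (0 : Divisor K F) :=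
      le_antisymm (fun f hf => hcon f hf) hmono
    have h1 : ell D = ell (0 : Divisor K F) := by rw [ell_def, ell_def, heq]
    rw [ell_zero h] at h1
    omega
  obtain ⟨f, hfD, hf0⟩ := hex
  have hfne : f ≠ 0 := by
    rintro rfl
    exact hf0 (Submodule.zero_mem _)
  have hD' := mem_riemannRochSpace_iff.mp hfD
  have hother : ∀ v : Place K F, v ≠ P → 0 ≤ v.ord f := by
    intro v hv
    rcases hD' v with h1 | h1
    · exact absurd h1 hfne
    · rw [hD, Finsupp.single_apply, if_neg (Ne.symm hv), neg_zero] at h1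
      exact h1
  refine ⟨f, hfne, ?_, hother⟩
  by_contra hP
  push Not at hP
  apply hf0
  rw [mem_riemannRochSpace_iff]
  intro v
  right
  rw [Finsupp.zero_apply, neg_zero]
  by_cases hv : v = P
  · rw [hv]; exact hP
  · exact hother v hv

end General

section Laurent

variable (F₀ : IntermediateField ℚ (LaurentSeries ℚ))

/-- Every place of a base-changed Laurent function field (with Riemann's inequality) has an
open stabiliser. -/
theorem place_open_stab (h : IsRRField Qb (laurentBaseChange Qb F₀))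
    (P : Place Qb (laurentBaseChange Qb F₀)) :
    ∃ L : IntermediateField ℚ Qb, FiniteDimensional ℚ L ∧
      ∀ σ : GQ, (∀ a ∈ L, σ a = a) → arithmeticGalois F₀ σ • P = P := by
  obtain ⟨f, -, hPf, hother⟩ := exists_only_pole h P
  obtain ⟨L, hL, hLf⟩ := isDefinedOverNF_of_mem F₀ f.2
  refine ⟨L, hL, fun σ hσ => ?_⟩
  have hgf : arithmeticGalois F₀ σ • f = f :=
    Subtype.ext ((coe_arithmeticGalois_smul F₀ σ f).trans (hLf σ hσ))
  have h1 := SemilinearAut.ord_smul (arithmeticGalois F₀ σ) P f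
  rw [hgf] at h1
  by_contra hne
  have h2 := hother _ hne
  rw [h1] at h2
  exact absurd hPf (not_lt.mpr h2)

/-- Every divisor has an open stabiliser. -/
theorem divisor_open_stab (h : IsRRField Qb (laurentBaseChange Qb F₀))
    (D : Divisor Qb (laurentBaseChange Qb F₀)) :
    ∃ L : IntermediateField ℚ Qb, FiniteDimensional ℚ L ∧
      ∀ σ : GQ, (∀ a ∈ L, σ a = a) → arithmeticGalois F₀ σ • D = D := by
  induction D using Finsupp.induction_linear with
  | zero => exact ⟨⊥, inferInstance, fun σ _ => smul_zero _⟩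
  | add D₁ D₂ h₁ h₂ =>
    obtain ⟨L₁, hL₁, hs₁⟩ := h₁
    obtain ⟨L₂, hL₂, hs₂⟩ := h₂
    refine ⟨L₁ ⊔ L₂, IntermediateField.finiteDimensional_sup L₁ L₂, fun σ hσ => ?_⟩
    rw [smul_add, hs₁ σ fun a ha => hσ a ((le_sup_left : L₁ ≤ L₁ ⊔ L₂) ha),
      hs₂ σ fun a ha => hσ a ((le_sup_right : L₂ ≤ L₁ ⊔ L₂) ha)]
  | single P n =>
    obtain ⟨L, hL, hs⟩ := place_open_stab F₀ h P
    refine ⟨L, hL, fun σ hσ => ?_⟩
    rw [SemilinearAut.smul_single, hs σ hσ]

/-- Every divisor class of degree zero has an open stabiliser. -/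
theorem pic0_open_stab (h : IsRRField Qb (laurentBaseChange Qb F₀))
    (y : Pic0 Qb (laurentBaseChange Qb F₀)) :
    ∃ L : IntermediateField ℚ Qb, FiniteDimensional ℚ L ∧
      ∀ σ : GQ, (∀ a ∈ L, σ a = a) → σ • y = y := by
  obtain ⟨D, rfl⟩ := Pic0.mk_surjective y
  obtain ⟨L, hL, hs⟩ := divisor_open_stab F₀ h (D : Divisor Qb (laurentBaseChange Qb F₀))
  refine ⟨L, hL, fun σ hσ => ?_⟩
  rw [galois_smul_pic0_def, SemilinearAut.pic0_smul_mk]
  congr 1
  apply Subtype.ext
  rw [SemilinearAut.coe_degZeroSMulHom]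
  exact hs σ hσ

end Laurent

/-- **(OPEN)** Every point of `J₀(N)(ℚ̄)` is fixed by an open subgroup of `G_ℚ`. -/
theorem openStab (N : ℕ) [NeZero N] (y : JZero N) :
    ∃ L : IntermediateField ℚ Qb, FiniteDimensional ℚ L ∧
      ∀ σ : GQ, (∀ a ∈ L, σ a = a) → σ • y = y :=
  pic0_open_stab (modularFunctionFieldFull N) (Fermat.Agent.RRMod.isRRField_bar N) y

end Fermat.Agent.S17W
end
end MergeWrap_S17_W_OpenStab
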